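import Mathlib
import Fermat.Prelude.Def_ModularCurve_ArithmeticGalois
import Fermat.Agent.MUL.Lib.BadRed.Final.Nodal

set_option autoImplicit false

/-!
# S17 (Mordell-Weil for `J₀(N)`): top-level interfaces

`MW N` is the group of the statement.  S17 is cut into

* `WeakMW N`   : `MW N / 2 MW N` is finite                      (package W, sub-architect helper70)
* `HeightThm N`: a quasi-quadratic Northcott height on `MW N`   (package H, architect helper28)

and `JZeroTwoDivisible N` (package DIV, owner helper54) is an input of W.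
The assembly `fg_of_weakMW_of_heightThm` is proved here (Mathlib's descent theorem).
-/

noncomputable section

open ModularCurve AlgebraicCurve

namespace Fermat.Agent.S17

/-- the absolute Galois group of `ℚ` -/
abbrev GQ : Type := (AlgebraicClosure ℚ) ≃ₐ[ℚ] (AlgebraicClosure ℚ)

/-- The Mordell-Weil group of the statement: Galois-fixed points of `J₀(N)(ℚ̄)`. -/
abbrev MW (N : ℕ) [NeZero N] : AddSubgroup (JZero N) :=
  FixedPoints.addSubgroup GQ (JZero N)

/-- **Package DIV.** `J₀(N)(ℚ̄)` is divisible by `2`. -/
def JZeroTwoDivisible (N : ℕ) [NeZero N] : Prop :=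
  ∀ x : JZero N, ∃ y : JZero N, (2 : ℕ) • y = x

/-- **Package W (weak Mordell-Weil).** `MW N / 2 MW N` is finite, in the form used by
`AddCommGroup.fg_of_descent'`. -/
def WeakMW (N : ℕ) [NeZero N] : Prop :=
  (nsmulAddMonoidHom (α := MW N) 2).range.FiniteIndex

/-- **Package H (heights).** A nonnegative function on `MW N` with the approximate
parallelogram law and the Northcott property. -/
def HeightThm (N : ℕ) [NeZero N] : Prop :=
  ∃ (h : MW N → ℝ) (C : ℝ), (∀ x, 0 ≤ h x) ∧
    (∀ x y, |h (x + y) + h (x - y) - 2 * (h x + h y)| ≤ C) ∧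
    (∀ B : ℝ, {x : MW N | h x ≤ B}.Finite)

/-- **Assembly.** Weak Mordell-Weil + heights ⟹ `MW N` is finitely generated. -/
theorem fg_of_weakMW_of_heightThm (N : ℕ) [NeZero N] (hW : WeakMW N) (hH : HeightThm N) :
    AddGroup.FG (MW N) := by
  obtain ⟨h, C, h0, hpar, hN⟩ := hH
  have : Northcott h := ⟨fun B => hN B⟩
  exact AddCommGroup.fg_of_descent' (h := h) (C := C) hW h0 hpar

end Fermat.Agent.S17
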